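import Mathlib.RingTheory.WittVector.Complete
import Mathlib.RingTheory.WittVector.DiscreteValuationRing
import Mathlib.RingTheory.Henselian
import Mathlib.FieldTheory.IsAlgClosed.AlgebraicClosure
import Mathlib.RingTheory.Localization.FractionRing
import Mathlib.NumberTheory.Padics.PadicVal.Basic

/-!
# Square roots in the Witt vectors

For `p` odd every unit of the Witt vectors of an algebraic closure of `ZMod p` is a square, and an
integer of odd `p`-adic valuation is not a square in their field of fractions.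
-/

set_option autoImplicit false

noncomputable section

open Polynomial

namespace FA.Arboreal

variable (p : ℕ) [hp : Fact p.Prime]

/-- The residue field. -/
abbrev ResField := AlgebraicClosure (ZMod p)

/-- The maximal unramified extension of `ℤ_p`, completed. -/
abbrev UnramInt := WittVector p (ResField p)

/-- Its field of fractions. -/
abbrev UnramField := FractionRing (UnramInt p)

theorem natCast_ne_zero_witt {n : ℕ} (hn : n ≠ 0) : (n : UnramInt p) ≠ 0 := by
  obtain ⟨e, m, hm, rfl⟩ := Nat.exists_eq_pow_mul_and_not_dvd hn p hp.out.ne_one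
  push_cast
  refine mul_ne_zero (pow_ne_zero _ (WittVector.p_nonzero p _)) ?_
  refine (WittVector.isUnit_of_coeff_zero_ne_zero _ ?_).ne_zero
  show WittVector.constantCoeff (m : UnramInt p) ≠ 0
  rw [map_natCast]
  exact fun h => hm ((CharP.cast_eq_zero_iff (ResField p) p m).1 h)

instance charZero_unramInt : CharZero (UnramInt p) :=
  charZero_of_inj_zero fun _ hn => by_contra fun h => natCast_ne_zero_witt p h hn

instance charZero_unramField : CharZero (UnramField p) :=
  charZero_of_injective_algebraMap (IsFractionRing.injective (UnramInt p) (UnramField p))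

/-- Every unit is a square for odd `p`. -/
theorem exists_sq_eq (h2 : p ≠ 2) {u : UnramInt p} (hu : WittVector.constantCoeff u ≠ 0) :
    ∃ z : UnramInt p, z ^ 2 = u := by
  obtain ⟨b, hb⟩ := IsAlgClosed.exists_pow_nat_eq (WittVector.constantCoeff u) two_pos
  obtain ⟨b₀, hb₀⟩ := WittVector.constantCoeff_surjective p b
  have hmem : (X ^ 2 - C u : (UnramInt p)[X]).eval b₀ ∈ Ideal.span {(p : UnramInt p)} := by
    rw [← WittVector.ker_constantCoeff, RingHom.mem_ker]
    rw [eval_sub, eval_pow, eval_X, eval_C, map_sub, map_pow, hb₀, hb, sub_self]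
  have hder : IsUnit (Ideal.Quotient.mk (Ideal.span {(p : UnramInt p)})
      ((derivative (X ^ 2 - C u : (UnramInt p)[X])).eval b₀)) := by
    refine (WittVector.isUnit_of_coeff_zero_ne_zero _ ?_).map _
    show WittVector.constantCoeff _ ≠ 0
    have hbne : b ≠ 0 := fun h => hu (by rw [← hb, h, zero_pow two_ne_zero])
    have htwo : (2 : ResField p) ≠ 0 := fun h => h2 (((Nat.prime_dvd_prime_iff_eq hp.out
      Nat.prime_two).1 ((CharP.cast_eq_zero_iff (ResField p) p 2).1 (by exact_mod_cast h))))
    rw [derivative_sub, derivative_C, sub_zero, derivative_X_pow, eval_mul, eval_C, eval_pow,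
      eval_X, map_mul, map_natCast, map_pow, hb₀, Nat.cast_ofNat, pow_one]
    exact mul_ne_zero htwo hbne
  obtain ⟨z, hz, -⟩ := HenselianRing.is_henselian (I := Ideal.span {(p : UnramInt p)})
    (X ^ 2 - C u) (monic_X_pow_sub_C u two_ne_zero) b₀ hmem hder
  refine ⟨z, ?_⟩
  rw [IsRoot.def, eval_sub, eval_pow, eval_X, eval_C] at hz
  exact sub_eq_zero.1 hz

/-- An integer of odd valuation is not a square in the field of fractions. -/
theorem not_sq_of_odd {c : ℤ} (hc : c ≠ 0) (hodd : Odd (padicValInt p c)) (y : UnramField p) :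
    y ^ 2 ≠ (c : UnramField p) := by
  intro hy
  set e := padicValInt p c with he
  obtain ⟨c', hc'⟩ := padicValInt_dvd (p := p) c
  rw [← he] at hc'
  have hc'0 : c' ≠ 0 := fun h => hc (by rw [hc', h, mul_zero])
  have hunit : IsUnit ((c' : ℤ) : UnramInt p) := by
    refine WittVector.isUnit_of_coeff_zero_ne_zero _ ?_
    show WittVector.constantCoeff ((c' : ℤ) : UnramInt p) ≠ 0
    rw [map_intCast]
    intro h
    obtain ⟨t, ht⟩ := (CharP.intCast_eq_zero_iff (ResField p) p c').1 h
    have hd : (p : ℤ) ^ (e + 1) ∣ c := ⟨t, by rw [hc', ht]; ring⟩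
    rcases (padicValInt_dvd_iff (e + 1) c).1 hd with h' | h'
    · exact hc h'
    · omega
  obtain ⟨x, d, hd, rfl⟩ := IsFractionRing.div_surjective (A := UnramInt p) y
  have hd0 : d ≠ 0 := nonZeroDivisors.ne_zero hd
  have hinj := IsFractionRing.injective (UnramInt p) (UnramField p)
  rw [div_pow, div_eq_iff (pow_ne_zero _ ((map_ne_zero_iff _ hinj).2 hd0)),
    ← map_intCast (algebraMap (UnramInt p) (UnramField p)), ← map_pow, ← map_pow, ← map_mul] at hy
  have hy' : x ^ 2 = (c : UnramInt p) * d ^ 2 := hinj hy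
  have hx0 : x ≠ 0 := fun h => by
    rw [h, zero_pow two_ne_zero, eq_comm, mul_eq_zero] at hy'
    exact hy'.elim (Int.cast_ne_zero.2 hc) (pow_ne_zero _ hd0)
  obtain ⟨i, u, hu⟩ := WittVector.exists_eq_pow_p_mul' x hx0
  obtain ⟨j, v, hv⟩ := WittVector.exists_eq_pow_p_mul' d hd0
  have key : ((u ^ 2 : (UnramInt p)ˣ) : UnramInt p) * (p : UnramInt p) ^ (2 * i) =
      ((hunit.unit * v ^ 2 : (UnramInt p)ˣ) : UnramInt p) * (p : UnramInt p) ^ (e + 2 * j) := by
    rw [Units.val_mul, Units.val_pow_eq_pow_val, Units.val_pow_eq_pow_val, IsUnit.unit_spec]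
    rw [hu, hv, hc'] at hy'
    push_cast at hy'
    linear_combination hy'
  have := IsDiscreteValuationRing.unit_mul_pow_congr_pow (WittVector.irreducible p)
    (WittVector.irreducible p) _ _ _ _ key
  obtain ⟨t, ht⟩ := hodd
  omega

end FA.Arboreal

end
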