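import Mathlib.FieldTheory.IntermediateField.Adjoin.Basic
import Mathlib.FieldTheory.Minpoly.Field
import Mathlib.LinearAlgebra.Dimension.Free
import Mathlib.Algebra.CharP.Two
import Mathlib.Tactic.LinearCombination

/-!
# Multiquadratic extensions

Square roots whose non-empty products all lie outside the base field generate an extension of
degree `2 ^ card`, and its elements with square in the base field are the products of the roots.
-/

set_option autoImplicit false

noncomputable section

open Polynomial IntermediateField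

namespace FA.Arboreal

variable {F E : Type*} [Field F] [Field E] [Algebra F E] [CharZero E]

theorem multiquadratic_aux [Algebra.IsAlgebraic F E] (M : IntermediateField F E) (T : Finset E)
    (hsq : ∀ s ∈ T, s ^ 2 ∈ M)
    (hind : ∀ S : Finset E, S ⊆ T → S.Nonempty → ∏ s ∈ S, s ∉ M) :
    Module.finrank F (M ⊔ adjoin F (T : Set E) : IntermediateField F E) =
      Module.finrank F M * 2 ^ T.card ∧
    ∀ x : E, x ^ 2 ∈ M → x ∈ M ⊔ adjoin F (T : Set E) → ∃ S ⊆ T, x * ∏ s ∈ S, s ∈ M := by
  classical
  induction T using Finset.induction_on with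
  | empty =>
    rw [Finset.coe_empty, adjoin_empty, sup_bot_eq]
    exact ⟨by simp, fun x _ hx => ⟨∅, subset_rfl, by simpa using hx⟩⟩
  | insert s T hs ih =>
    obtain ⟨hdeg, hrep⟩ := ih (fun t ht => hsq t (Finset.mem_insert_of_mem ht))
      fun S hS => hind S (hS.trans (Finset.subset_insert s T))
    set L := M ⊔ adjoin F (T : Set E) with hL
    have hML : M ≤ L := le_sup_left
    have hs2 : s ^ 2 ∈ L := hML (hsq s (Finset.mem_insert_self s T))
    have hsL : s ∉ L := fun h => by
      obtain ⟨S, hS, hSM⟩ := hrep s (hsq s (Finset.mem_insert_self s T)) h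
      rw [← Finset.prod_insert (f := fun t : E => t) fun h' => hs (hS h')] at hSM
      exact hind _ (Finset.insert_subset_insert s hS) (Finset.insert_nonempty s S) hSM
    have hLs : M ⊔ adjoin F ((insert s T : Finset E) : Set E) =
        restrictScalars F (adjoin L ({s} : Set E)) := by
      rw [restrictScalars_adjoin_eq_sup, hL, Finset.coe_insert, Set.insert_eq, adjoin_union,
        sup_comm (adjoin F {s}), sup_assoc]
    set c : L := ⟨s ^ 2, hs2⟩
    have hroot : aeval s (X ^ 2 - C c) = 0 := by
      rw [map_sub, map_pow, aeval_X, aeval_C]; exact sub_self _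
    have hmonic : (X ^ 2 - C c : L[X]).Monic := monic_X_pow_sub_C _ two_ne_zero
    have hint : IsIntegral L s := ⟨_, hmonic, by rwa [aeval_def] at hroot⟩
    have hmin : (minpoly L s).natDegree = 2 := by
      refine le_antisymm ((natDegree_le_of_dvd (minpoly.dvd L s hroot) hmonic.ne_zero).trans
        natDegree_X_pow_sub_C.le) ?_
      rw [minpoly.two_le_natDegree_iff hint]
      rintro ⟨t, ht⟩
      exact hsL (ht ▸ t.2)
    refine ⟨?_, fun x hx2 hx => ?_⟩
    · have h2 : Module.finrank L (adjoin L ({s} : Set E)) = 2 := by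
        rw [adjoin.finrank hint, hmin]
      rw [hLs, Finset.card_insert_of_notMem hs, pow_succ, ← mul_assoc, ← hdeg, ← h2]
      exact (Module.finrank_mul_finrank F L (adjoin L ({s} : Set E))).symm
    rw [hLs, mem_restrictScalars, ← mem_toSubalgebra,
      adjoin_simple_toSubalgebra_of_isAlgebraic hint.isAlgebraic,
      Algebra.adjoin_singleton_eq_range_aeval] at hx
    obtain ⟨g, hg⟩ := hx
    obtain ⟨u, v, huv⟩ : ∃ u v : L, x = (u : E) + v * s := by
      refine ⟨(g %ₘ (X ^ 2 - C c)).coeff 0, (g %ₘ (X ^ 2 - C c)).coeff 1, ?_⟩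
      have hlt : (g %ₘ (X ^ 2 - C c)).natDegree < 2 := by
        have := natDegree_modByMonic_lt g hmonic (fun h => by
          have := congrArg natDegree h
          rw [natDegree_X_pow_sub_C, natDegree_one] at this
          omega)
        rwa [natDegree_X_pow_sub_C] at this
      rw [← hg]
      show aeval s g = _
      rw [← aeval_modByMonic_eq_self_of_root hroot, aeval_eq_sum_range' hlt,
        Finset.sum_range_succ, Finset.sum_range_one]
      simp [Algebra.smul_def, IntermediateField.algebraMap_apply]
    by_cases hv : v = 0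
    · subst hv
      obtain ⟨S, hS, hSM⟩ := hrep x hx2 (by rw [huv]; simp)
      exact ⟨S, hS.trans (Finset.subset_insert s T), hSM⟩
    by_cases hu : u = 0
    · subst hu
      have hxs : x * s ∈ L := by
        rw [show x * s = v * s ^ 2 by rw [huv]; simp; ring]
        exact mul_mem v.2 hs2
      have hxs2 : (x * s) ^ 2 ∈ M := by
        rw [mul_pow]; exact mul_mem hx2 (hsq s (Finset.mem_insert_self s T))
      obtain ⟨S, hS, hSM⟩ := hrep _ hxs2 hxs
      refine ⟨insert s S, Finset.insert_subset_insert s hS, ?_⟩
      rwa [Finset.prod_insert fun h' => hs (hS h'), ← mul_assoc]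
    exfalso
    refine hsL ?_
    have e : s = (x ^ 2 - ((u : E) ^ 2 + (v : E) ^ 2 * s ^ 2)) / (2 * u * v) := by
      have hu' : (u : E) ≠ 0 := fun h => hu (Subtype.ext h)
      have hv' : (v : E) ≠ 0 := fun h => hv (Subtype.ext h)
      rw [huv, eq_div_iff (mul_ne_zero (mul_ne_zero two_ne_zero hu') hv')]
      ring
    rw [e]
    exact div_mem (sub_mem (hML hx2) (add_mem (pow_mem u.2 2) (mul_mem (pow_mem v.2 2) hs2)))
      (mul_mem (mul_mem (IntermediateField.natCast_mem L 2) u.2) v.2)

end FA.Arboreal

end
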