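import Fermat.Agent.Arboreal.NonSquare
import Fermat.Agent.Arboreal.Quadratic
import Fermat.Agent.Arboreal.Padic
import Mathlib.FieldTheory.IsAlgClosed.AlgebraicClosure
import Mathlib.FieldTheory.PolynomialGaloisGroup

/-!
# The iterates of `X² + a` and the tower of their splitting fields

The critical values `orbit a n` are not squares in the lower fields of the tower.
-/

set_option autoImplicit false

noncomputable section

open Polynomial IntermediateField

namespace FA.Arboreal

/-- The algebraic closure of `ℚ`. -/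
abbrev Qbar := AlgebraicClosure ℚ

theorem isAlgebraic_qbar : Algebra.IsAlgebraic ℚ Qbar := AlgebraicClosure.isAlgebraic ℚ

attribute [local instance] isAlgebraic_qbar

/-- The `m`-th iterate of `X² + a`. -/
def iterPoly (a : ℤ) : ℕ → ℚ[X]
  | 0 => X
  | m + 1 => (iterPoly a m).comp (X ^ 2 + C (a : ℚ))

/-- A chosen square root. -/
def sqrtQbar (x : Qbar) : Qbar := (IsAlgClosed.exists_pow_nat_eq x two_pos).choose

theorem sqrtQbar_sq (x : Qbar) : sqrtQbar x ^ 2 = x :=
  (IsAlgClosed.exists_pow_nat_eq x two_pos).choose_spec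

open scoped Classical in
/-- The roots of the `m`-th iterate. -/
def iterRoots (a : ℤ) : ℕ → Finset Qbar
  | 0 => {0}
  | m + 1 => (iterRoots a m).biUnion fun β => {sqrtQbar (β - a), -sqrtQbar (β - a)}

/-- The splitting field of the `m`-th iterate. -/
def iterField (a : ℤ) (m : ℕ) : IntermediateField ℚ Qbar := adjoin ℚ (iterRoots a m : Set Qbar)

theorem aeval_iterPoly_succ (a : ℤ) (m : ℕ) {A : Type*} [CommRing A] [Algebra ℚ A] (x : A) :
    aeval x (iterPoly a (m + 1)) = aeval (x ^ 2 + (a : A)) (iterPoly a m) := by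
  rw [iterPoly, aeval_comp]
  simp

theorem aeval_orbit (a : ℤ) (m : ℕ) : ∀ j : ℕ, aeval ((orbit a j : ℤ) : Qbar) (iterPoly a m) =
    ((orbit a (j + m) : ℤ) : Qbar) := by
  induction m with
  | zero => intro j; simp [iterPoly]
  | succ m ih =>
    intro j
    rw [aeval_iterPoly_succ, show ((orbit a j : ℤ) : Qbar) ^ 2 + (a : Qbar) =
      ((orbit a (j + 1) : ℤ) : Qbar) by rw [orbit_succ]; push_cast; rfl, ih,
      show j + 1 + m = j + (m + 1) by omega]

theorem aeval_iterPoly_a (a : ℤ) (m : ℕ) :
    aeval ((a : ℤ) : Qbar) (iterPoly a m) = ((orbit a (m + 1) : ℤ) : Qbar) := by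
  have h := aeval_orbit a m 1
  rwa [orbit_one, add_comm] at h

theorem mem_iterRoots_succ {a : ℤ} {m : ℕ} {x : Qbar} :
    x ∈ iterRoots a (m + 1) ↔ x ^ 2 + (a : Qbar) ∈ iterRoots a m := by
  simp only [iterRoots, Finset.mem_biUnion, Finset.mem_insert, Finset.mem_singleton]
  constructor
  · rintro ⟨β, hβ, rfl | rfl⟩
    · rwa [sqrtQbar_sq, sub_add_cancel]
    · rwa [neg_sq, sqrtQbar_sq, sub_add_cancel]
  · intro h
    refine ⟨_, h, ?_⟩
    rw [add_sub_cancel_right]
    exact sq_eq_sq_iff_eq_or_eq_neg.1 (sqrtQbar_sq (x ^ 2)).symm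

theorem mem_iterRoots (a : ℤ) (m : ℕ) {x : Qbar} :
    x ∈ iterRoots a m ↔ aeval x (iterPoly a m) = 0 := by
  induction m generalizing x with
  | zero => simp [iterRoots, iterPoly]
  | succ m ih => rw [mem_iterRoots_succ, ih, aeval_iterPoly_succ]

variable {a : ℤ}

theorem orbit_cast_ne_zero (h : StollCondition a) {n : ℕ} (hn : 0 < n) :
    ((orbit a n : ℤ) : Qbar) ≠ 0 := by
  obtain ⟨h0, h1, h2⟩ := h.ne
  exact_mod_cast orbit_ne_zero h0 h1 h2 hn

theorem sub_ne_zero_of_mem (h : StollCondition a) {m : ℕ} {β : Qbar} (hβ : β ∈ iterRoots a m) :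
    β - (a : Qbar) ≠ 0 := fun he => by
  rw [sub_eq_zero] at he
  rw [mem_iterRoots, he, aeval_iterPoly_a] at hβ
  exact orbit_cast_ne_zero h (Nat.succ_pos m) hβ

theorem sqrt_sub_injOn (a : ℤ) (m : ℕ) :
    Set.InjOn (fun β : Qbar => sqrtQbar (β - (a : Qbar))) (iterRoots a m) := fun x _ y _ he => by
  have e := congrArg (fun r : Qbar => r ^ 2) he
  simp only [sqrtQbar_sq, sub_left_inj] at e
  exact e

theorem card_iterRoots (h : StollCondition a) (m : ℕ) : (iterRoots a m).card = 2 ^ m := by
  classical
  induction m with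
  | zero => simp [iterRoots]
  | succ m ih =>
    rw [iterRoots, Finset.card_biUnion]
    · rw [Finset.sum_congr rfl fun β hβ => Finset.card_pair ?_, Finset.sum_const, ih, smul_eq_mul,
        pow_succ]
      intro he
      have e : sqrtQbar (β - (a : Qbar)) = 0 := CharZero.eq_neg_self_iff.1 he
      exact sub_ne_zero_of_mem h hβ
        (by rw [← sqrtQbar_sq (β - (a : Qbar)), e, zero_pow two_ne_zero])
    · intro x _ y _ hxy
      rw [Function.onFun, Finset.disjoint_left]
      intro r hr hr'
      have key : ∀ β : Qbar, r ∈ ({sqrtQbar (β - a), -sqrtQbar (β - a)} : Finset Qbar) →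
          β = r ^ 2 + (a : Qbar) := by
        intro β hβ
        simp only [Finset.mem_insert, Finset.mem_singleton] at hβ
        rcases hβ with rfl | rfl <;> simp [sqrtQbar_sq]
      exact hxy ((key x hr).trans (key y hr').symm)

theorem iterPoly_natDegree (a : ℤ) (m : ℕ) : (iterPoly a m).natDegree = 2 ^ m := by
  induction m with
  | zero => simp [iterPoly]
  | succ m ih => rw [iterPoly, natDegree_comp, ih, natDegree_X_pow_add_C, pow_succ]

theorem iterPoly_monic (a : ℤ) (m : ℕ) : (iterPoly a m).Monic := by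
  induction m with
  | zero => exact monic_X
  | succ m ih =>
    exact ih.comp (monic_X_pow_add_C _ two_ne_zero) (by rw [natDegree_X_pow_add_C]; omega)

theorem aroots_iterPoly (h : StollCondition a) (m : ℕ) :
    (iterPoly a m).aroots Qbar = (iterRoots a m).val := by
  refine (Multiset.eq_of_le_of_card_le ?_ ?_).symm
  · exact (Multiset.le_iff_subset (iterRoots a m).nodup).2 fun x hx =>
      mem_aroots.2 ⟨(iterPoly_monic a m).ne_zero, (mem_iterRoots a m).1 hx⟩
  · rw [← Finset.card_def, card_iterRoots h, ← iterPoly_natDegree a m, aroots_def]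
    exact (card_roots' _).trans natDegree_map_le

theorem rootSet_iterPoly (h : StollCondition a) (m : ℕ) :
    (iterPoly a m).rootSet Qbar = (iterRoots a m : Set Qbar) := by
  classical
  rw [rootSet_def, aroots_iterPoly h, Finset.val_toFinset]

theorem iterPoly_separable (h : StollCondition a) (m : ℕ) : (iterPoly a m).Separable := by
  classical
  rw [← separable_map (algebraMap ℚ Qbar),
    ← nodup_roots_iff_of_splits (map_ne_zero (iterPoly_monic a m).ne_zero) (IsAlgClosed.splits _)]
  rw [← aroots_def, aroots_iterPoly h]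
  exact (iterRoots a m).nodup

theorem isSplittingField_iterField (h : StollCondition a) (m : ℕ) :
    IsSplittingField ℚ (iterField a m) (iterPoly a m) := by
  have e := IntermediateField.adjoin_rootSet_isSplittingField
    (K := ℚ) (L := Qbar) (p := iterPoly a m) (IsAlgClosed.splits _)
  rwa [rootSet_iterPoly h] at e

theorem finiteDimensional_iterField (a : ℤ) (m : ℕ) : FiniteDimensional ℚ (iterField a m) :=
  finiteDimensional_adjoin fun x _ => Algebra.IsIntegral.isIntegral x

open scoped Classical in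
/-- The square roots generating the next field. -/
def sqrtSet (a : ℤ) (m : ℕ) : Finset Qbar :=
  (iterRoots a m).image fun β => sqrtQbar (β - (a : Qbar))

theorem iterField_succ (a : ℤ) (m : ℕ) :
    iterField a (m + 1) = iterField a m ⊔ adjoin ℚ (sqrtSet a m : Set Qbar) := by
  classical
  refine le_antisymm (adjoin_le_iff.2 fun x hx => ?_) (sup_le ?_ ?_)
  · rw [Finset.mem_coe, iterRoots, Finset.mem_biUnion] at hx
    obtain ⟨β, hβ, hx⟩ := hx
    have hs : sqrtQbar (β - (a : Qbar)) ∈ iterField a m ⊔ adjoin ℚ (sqrtSet a m : Set Qbar) :=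
      (le_sup_right : adjoin ℚ (sqrtSet a m : Set Qbar) ≤ _)
        (subset_adjoin _ _ (Finset.mem_image_of_mem _ hβ))
    simp only [Finset.mem_insert, Finset.mem_singleton] at hx
    rcases hx with rfl | rfl
    · exact hs
    · exact neg_mem hs
  · refine adjoin_le_iff.2 fun β hβ => ?_
    rw [show β = sqrtQbar (β - (a : Qbar)) ^ 2 + (a : Qbar) by rw [sqrtQbar_sq, sub_add_cancel]]
    refine add_mem (pow_mem (subset_adjoin ℚ _ ?_) 2) (IntermediateField.intCast_mem _ a)
    rw [Finset.mem_coe, mem_iterRoots_succ, sqrtQbar_sq, sub_add_cancel]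
    exact hβ
  · refine adjoin_le_iff.2 fun x hx => ?_
    obtain ⟨β, hβ, rfl⟩ := Finset.mem_image.1 hx
    refine subset_adjoin ℚ _ ?_
    rw [Finset.mem_coe, mem_iterRoots_succ, sqrtQbar_sq, sub_add_cancel]
    exact hβ

theorem card_sqrtSet (h : StollCondition a) (m : ℕ) : (sqrtSet a m).card = 2 ^ m := by
  classical
  rw [sqrtSet, Finset.card_image_of_injOn (sqrt_sub_injOn a m), card_iterRoots h]

theorem sqrtSet_sq_mem (a : ℤ) (m : ℕ) : ∀ s ∈ sqrtSet a m, s ^ 2 ∈ iterField a m := by
  classical
  intro s hs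
  obtain ⟨β, hβ, rfl⟩ := Finset.mem_image.1 hs
  rw [sqrtQbar_sq]
  exact sub_mem (subset_adjoin ℚ _ hβ) (IntermediateField.intCast_mem _ a)

/-! ### The critical values are not squares below -/

theorem not_sq_bot {c : ℤ} (hc : ¬IsSquare c) {y : Qbar}
    (hy : y ∈ (⊥ : IntermediateField ℚ Qbar)) : y ^ 2 ≠ ((c : ℤ) : Qbar) := by
  obtain ⟨q, rfl⟩ := IntermediateField.mem_bot.1 hy
  intro h
  rw [← map_pow, ← map_intCast (algebraMap ℚ Qbar)] at h
  exact hc (Rat.isSquare_intCast_iff.1
    ⟨q, by rw [← sq]; exact ((algebraMap ℚ Qbar).injective h).symm⟩)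

theorem iterField_zero (a : ℤ) : iterField a 0 = ⊥ := by
  rw [iterField, iterRoots, Finset.coe_singleton, adjoin_simple_eq_bot_iff]
  exact zero_mem _

theorem not_isSquare_orbit_two (h : StollCondition a) :
    ¬IsSquare (orbit a 2) ∧ ¬IsSquare (-(a + 1)) := by
  rw [orbit_two]
  rcases h with ⟨ha, -⟩ | ⟨ha, ha4⟩
  · refine ⟨?_, fun ⟨r, hr⟩ => by nlinarith [mul_self_nonneg r]⟩
    rintro ⟨r, hr⟩
    have h1 : a < |r| := by nlinarith [sq_abs r, abs_nonneg r]
    have h2 : |r| < a + 1 := by nlinarith [sq_abs r, abs_nonneg r]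
    omega
  · constructor
    · rintro ⟨r, hr⟩
      have h1 : |r| < -a := by nlinarith [sq_abs r, abs_nonneg r]
      have h2 : -a - 1 < |r| := by
        by_contra hle
        have := pow_le_pow_left₀ (abs_nonneg r) (not_lt.1 hle) 2
        rw [sq_abs] at this
        nlinarith [show a ≤ -4 by omega]
      omega
    · rintro ⟨r, hr⟩
      rcases Int.even_or_odd' r with ⟨t, rfl | rfl⟩ <;> ring_nf at hr <;> omega

/-- Below an odd primitive prime of odd multiplicity every root is unramified. -/
theorem not_sq_primitive (h : StollCondition a) {m : ℕ} (hm : 2 ≤ m) :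
    ∀ y ∈ iterField a m, y ^ 2 ≠ ((orbit a (m + 1) : ℤ) : Qbar) := by
  classical
  obtain ⟨h0, h1, h2⟩ := h.ne
  obtain ⟨p, hp, hp2, hpa, hrank, hodd⟩ := exists_odd_primitive h (show 3 ≤ m + 1 by omega)
  have := Fact.mk hp
  set Ω := AlgebraicClosure (UnramField p)
  have : CharZero Ω := charZero_of_injective_algebraMap (algebraMap (UnramField p) Ω).injective
  let φ : Qbar →ₐ[ℚ] Ω := IsAlgClosed.lift
  let ι : UnramInt p →+* Ω := (algebraMap (UnramField p) Ω).comp (algebraMap (UnramInt p) _)
  have hι : Function.Injective ι :=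
    (algebraMap (UnramField p) Ω).injective.comp (IsFractionRing.injective _ _)
  -- all roots below lift to the Witt vectors
  let g : ∀ {A : Type}, [CommRing A] → A → A := fun {A} _ x => x ^ 2 + (a : A)
  have hlift : ∀ j ≤ m, ∀ β ∈ iterRoots a j, ∃ w : UnramInt p, ι w = φ β ∧ g^[j] w = 0 := by
    intro j
    induction j with
    | zero =>
      intro _ β hβ
      rw [iterRoots, Finset.mem_singleton] at hβ
      subst hβ
      exact ⟨0, by simp, rfl⟩
    | succ j ih =>
      intro hj r hr
      rw [mem_iterRoots_succ] at hr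
      obtain ⟨w, hw, hw0⟩ := ih (by omega) _ hr
      have horb : ∀ i k : ℕ, g^[i] ((orbit a k : ℤ) : ResField p) =
          ((orbit a (k + i) : ℤ) : ResField p) := by
        intro i
        induction i with
        | zero => intro k; rfl
        | succ i hi =>
          intro k
          rw [Function.iterate_succ_apply, show g ((orbit a k : ℤ) : ResField p) =
            ((orbit a (k + 1) : ℤ) : ResField p) by simp [g, orbit_succ], hi,
            show k + 1 + i = k + (i + 1) by omega]
      have hmap : ∀ (i : ℕ) (z : UnramInt p),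
          WittVector.constantCoeff (g^[i] z) = g^[i] (WittVector.constantCoeff z) := by
        intro i
        induction i with
        | zero => intro z; rfl
        | succ i hi =>
          intro z
          rw [Function.iterate_succ_apply, Function.iterate_succ_apply, hi]
          simp only [g, map_add, map_pow, map_intCast]
      have hu : WittVector.constantCoeff (w - (a : UnramInt p)) ≠ 0 := by
        intro he
        rw [map_sub, map_intCast, sub_eq_zero] at he
        have e := congrArg WittVector.constantCoeff hw0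
        rw [hmap, he, map_zero, show ((a : ℤ) : ResField p) = ((orbit a 1 : ℤ) : ResField p) by
          rw [orbit_one], horb] at e
        exact hrank.2.2 (1 + j) (by omega) (by omega)
          ((CharP.intCast_eq_zero_iff (ResField p) p _).1 e)
      obtain ⟨z, hz⟩ := exists_sq_eq p hp2 hu
      have e : (ι z) ^ 2 = (φ r) ^ 2 := by
        rw [← map_pow, hz, map_sub, hw, map_intCast, map_add, map_pow, map_intCast,
          add_sub_cancel_right]
      have hz' : ∀ z' : UnramInt p, z' ^ 2 = z ^ 2 → g^[j + 1] z' = 0 := fun z' he => by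
        rw [Function.iterate_succ_apply, show g z' = w by simp [g, he, hz], hw0]
      rcases sq_eq_sq_iff_eq_or_eq_neg.1 e with e' | e'
      · exact ⟨z, e', hz' z rfl⟩
      · exact ⟨-z, by rw [map_neg, e', neg_neg], hz' _ (neg_sq z)⟩
  intro y hy hy2
  -- the image lies in the fraction field
  have hle : ∀ x ∈ iterField a m, φ x ∈ (algebraMap (UnramField p) Ω).fieldRange := by
    intro x hx
    induction hx using IntermediateField.adjoin_induction with
    | mem x hx =>
      obtain ⟨w, hw, -⟩ := hlift m le_rfl x hx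
      exact ⟨algebraMap _ _ w, hw⟩
    | algebraMap q =>
      rw [AlgHom.commutes, eq_ratCast]
      exact SubfieldClass.ratCast_mem _ q
    | add _ _ _ _ h1 h2 => rw [map_add]; exact add_mem h1 h2
    | inv _ _ h1 => rw [map_inv₀]; exact inv_mem h1
    | mul _ _ _ _ h1 h2 => rw [map_mul]; exact mul_mem h1 h2
  obtain ⟨l, hl⟩ := hle y hy
  refine not_sq_of_odd p (orbit_ne_zero h0 h1 h2 (by omega)) hodd l
    ((algebraMap (UnramField p) Ω).injective ?_)
  rw [map_pow, hl, ← map_pow, hy2, map_intCast, map_intCast]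

/-- The critical value is not a square in the field below it. -/
theorem not_sq_below (h : StollCondition a) (hsq : ¬IsSquare (-a)) {m : ℕ} (hm : 0 < m) :
    ∀ y ∈ iterField a m, y ^ 2 ≠ ((orbit a (m + 1) : ℤ) : Qbar) := by
  rcases (by omega : m = 1 ∨ 2 ≤ m) with rfl | hm2
  swap
  · exact not_sq_primitive h hm2
  intro y hy hy2
  obtain ⟨hc2, hc2'⟩ := not_isSquare_orbit_two h
  rw [iterField_succ, iterField_zero] at hy
  have hT : sqrtSet a 0 = {sqrtQbar (0 - (a : Qbar))} := by simp [sqrtSet, iterRoots]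
  set s := sqrtQbar (0 - (a : Qbar)) with hs
  have hs2 : s ^ 2 = ((-a : ℤ) : Qbar) := by rw [hs, sqrtQbar_sq]; push_cast; ring
  have hsM : ∀ t ∈ sqrtSet a 0, t ^ 2 ∈ (⊥ : IntermediateField ℚ Qbar) := by
    intro t ht
    rw [hT, Finset.mem_singleton] at ht
    rw [ht, hs2]
    exact IntermediateField.intCast_mem _ _
  have hind : ∀ S : Finset Qbar, S ⊆ sqrtSet a 0 → S.Nonempty →
      ∏ t ∈ S, t ∉ (⊥ : IntermediateField ℚ Qbar) := by
    intro S hS hne
    rw [hT, Finset.subset_singleton_iff] at hS
    rcases hS with rfl | rfl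
    · simp at hne
    rw [Finset.prod_singleton]
    exact fun hmem => not_sq_bot hsq hmem hs2
  obtain ⟨-, hrep⟩ := multiquadratic_aux ⊥ (sqrtSet a 0) hsM hind
  obtain ⟨S, hS, hSM⟩ := hrep y (by rw [hy2]; exact IntermediateField.intCast_mem _ _) hy
  rw [hT, Finset.subset_singleton_iff] at hS
  rcases hS with rfl | rfl
  · rw [Finset.prod_empty, mul_one] at hSM
    exact not_sq_bot hc2 hSM hy2
  · rw [Finset.prod_singleton] at hSM
    have ha : ((a : ℤ) : Qbar) ≠ 0 := Int.cast_ne_zero.2 h.ne.1
    refine not_sq_bot hc2' (div_mem hSM (IntermediateField.intCast_mem _ a)) ?_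
    rw [div_pow, mul_pow, hy2, hs2, div_eq_iff (pow_ne_zero _ ha), orbit_two]
    push_cast
    ring

end FA.Arboreal

end
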