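import Fermat.Agent.Arboreal.Orbit
import Mathlib.NumberTheory.LegendreSymbol.JacobiSymbol
import Mathlib.Data.Nat.Factorization.Basic
import Mathlib.Data.Nat.Choose.Sum
import Mathlib.Data.Nat.Squarefree

/-!
# Stoll's lemma: primitive parts of the orbit are not squares

For `a > 0`, `a ≡ 1, 2 (mod 4)` and for `a < 0`, `a ≡ 0 (mod 4)` every term of the orbit from
the third on has an odd primitive prime divisor of odd multiplicity: the primitive part is `-1`
modulo an explicit modulus for which `-1` is not a square.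
-/

set_option autoImplicit false

namespace FA.Arboreal

/-- Stoll's hypothesis on the constant. -/
def StollCondition (a : ℤ) : Prop :=
  (0 < a ∧ (a % 4 = 1 ∨ a % 4 = 2)) ∨ (a < 0 ∧ a % 4 = 0)

theorem StollCondition.ne {a : ℤ} (h : StollCondition a) : a ≠ 0 ∧ a ≠ -1 ∧ a ≠ -2 := by
  rcases h with ⟨h, -⟩ | ⟨h, h'⟩ <;> omega

/-- The orbit divided by `a`. -/
def reduced (a : ℤ) : ℕ → ℤ
  | 0 => 0
  | n + 1 => 1 + a * reduced a n ^ 2

theorem orbit_eq (a : ℤ) (n : ℕ) : orbit a n = a * reduced a n := by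
  induction n with
  | zero => simp [reduced]
  | succ n ih => rw [orbit_succ, ih, reduced]; ring

theorem reduced_one (a : ℤ) : reduced a 1 = 1 := by simp [reduced]

theorem reduced_two (a : ℤ) : reduced a 2 = 1 + a := by simp [reduced]

theorem not_dvd_reduced {a : ℤ} {p : ℕ} (hp : p.Prime) (hpa : (p : ℤ) ∣ a) {n : ℕ} (hn : 0 < n) :
    ¬(p : ℤ) ∣ reduced a n := by
  obtain ⟨m, rfl⟩ : ∃ m, n = m + 1 := ⟨n - 1, by omega⟩
  intro h
  rw [reduced] at h
  have h1 : (p : ℤ) ∣ (1 : ℤ) :=
    (dvd_add_left (a := (p : ℤ)) (b := 1) (hpa.mul_right (reduced a m ^ 2))).1 h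
  exact hp.not_dvd_one (Int.natCast_dvd_natCast.1 (by simpa using h1))

/-- The absolute value of the reduced orbit. -/
def mag (a : ℤ) (n : ℕ) : ℕ := (reduced a n).natAbs

theorem mag_ne_zero {a : ℤ} (h : StollCondition a) {n : ℕ} (hn : 0 < n) : mag a n ≠ 0 := by
  obtain ⟨h0, h1, h2⟩ := h.ne
  refine Int.natAbs_ne_zero.2 fun he => orbit_ne_zero h0 h1 h2 hn ?_
  rw [orbit_eq, he, mul_zero]

theorem not_sq_neg_one {M : ℕ} (hM : M % 4 = 0 ∨ M % 4 = 3 ∨ M % 8 = 6) (x : ℕ) :
    ¬M ∣ x ^ 2 + 1 := by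
  intro h
  rcases hM with hM | hM | hM
  · have h4 : 4 ∣ x ^ 2 + 1 := (Nat.dvd_of_mod_eq_zero hM).trans h
    have := Nat.pow_mod x 2 4
    have := Nat.mod_lt x (show 4 > 0 by omega)
    interval_cases hx : x % 4 <;> omega
  all_goals
    obtain ⟨m, hm, hmd⟩ : ∃ m : ℕ, m % 4 = 3 ∧ m ∣ x ^ 2 + 1 := by
      first
      | exact ⟨M, hM, h⟩
      | exact ⟨M / 2, by omega, (Nat.div_dvd_of_dvd (by omega)).trans h⟩
    have hodd : Odd m := Nat.odd_iff.2 (by omega)
    have hco : ((x : ℤ)).gcd m = 1 := by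
      rw [Int.gcd_natCast_natCast]
      have h1 : Nat.gcd x m ∣ x ^ 2 := (Nat.gcd_dvd_left x m).trans (dvd_pow_self x two_ne_zero)
      exact Nat.dvd_one.1 ((Nat.dvd_add_right h1).1 ((Nat.gcd_dvd_right x m).trans hmd))
    have e : jacobiSym (-1) m = jacobiSym ((x : ℤ) ^ 2) m := by
      refine jacobiSym.mod_left' ((Int.modEq_iff_dvd.2 ?_).eq)
      rw [sub_neg_eq_add]
      exact_mod_cast hmd
    rw [jacobiSym.sq_one' hco, jacobiSym.at_neg_one hodd, ZMod.χ₄_nat_three_mod_four hm] at e
    norm_num at e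

/-- The modulus for the index `k`: from `k + 1` on the sequence is `- mag k`. -/
theorem exists_modulus {a : ℤ} (h : StollCondition a) {k : ℕ} (hk : 0 < k) :
    ∃ M : ℕ, (M % 4 = 0 ∨ M % 4 = 3 ∨ M % 8 = 6) ∧ (mag a k).Coprime M ∧
      ∀ i, k < i → ((mag a i : ℕ) : ZMod M) = -((mag a k : ℕ) : ZMod M) := by
  have hpos : 0 < a → ∀ n, 0 < n → 0 < reduced a n := by
    intro ha n hn
    obtain ⟨m, rfl⟩ : ∃ m, n = m + 1 := ⟨n - 1, by omega⟩
    rw [reduced]
    nlinarith [sq_nonneg (reduced a m)]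
  have hneg : a < 0 → a % 4 = 0 → ∀ n, 2 ≤ n → reduced a n < 0 := by
    intro ha ha4 n hn
    induction n, hn using Nat.le_induction with
    | base => rw [reduced_two]; omega
    | succ m hm ih =>
      rw [reduced]
      nlinarith [mul_le_mul_of_nonpos_left (show (1 : ℤ) ≤ reduced a m ^ 2 by nlinarith) ha.le,
        show a ≤ -4 by omega]
  have hstep : ∀ (M : ℕ), (M : ℤ) ∣ reduced a k + reduced a (k + 1) →
      ∀ i, k < i → ((reduced a i : ℤ) : ZMod M) = -((reduced a k : ℤ) : ZMod M) := by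
    intro M hM i hi
    have h0 : ((reduced a (k + 1) : ℤ) : ZMod M) = -((reduced a k : ℤ) : ZMod M) := by
      rw [← ZMod.intCast_zmod_eq_zero_iff_dvd, Int.cast_add] at hM
      exact eq_neg_of_add_eq_zero_right hM
    induction i, hi using Nat.le_induction with
    | base => exact h0
    | succ m _ ih =>
      rw [reduced, Int.cast_add, Int.cast_mul, Int.cast_pow, ih, neg_sq, ← h0, reduced,
        Int.cast_add, Int.cast_mul, Int.cast_pow]
  have hcop : (mag a k).Coprime ((reduced a k + reduced a (k + 1)).natAbs) := by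
    refine Nat.coprime_of_dvd fun p hp h1 h2 => ?_
    have h1' : (p : ℤ) ∣ reduced a k := Int.natCast_dvd.2 h1
    have h3 : (p : ℤ) ∣ reduced a (k + 1) := (dvd_add_right h1').1 (Int.natCast_dvd.2 h2)
    rw [reduced] at h3
    have h4 : (p : ℤ) ∣ (1 : ℤ) :=
      (dvd_add_left (a := (p : ℤ)) (b := 1) ((h1'.pow two_ne_zero).mul_left a)).1 h3
    exact hp.not_dvd_one (Int.natCast_dvd_natCast.1 (by simpa using h4))
  have hmod8 : a % 4 = 2 ∨ a % 4 = 0 → ∀ n, 2 ≤ n → reduced a n % 8 = (1 + a) % 8 := by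
    intro ha n hn
    induction n, hn using Nat.le_induction with
    | base => rw [reduced_two]
    | succ m hm ih =>
      rw [reduced]
      have hodd : reduced a m % 2 = 1 := by omega
      obtain ⟨t, ht⟩ : ∃ t, reduced a m = 2 * t + 1 := ⟨reduced a m / 2, by omega⟩
      obtain ⟨s, hs⟩ : ∃ s, t * (t + 1) = 2 * s := Int.even_mul_succ_self t |>.two_dvd
      rw [show 1 + a * reduced a m ^ 2 = 1 + a + 8 * (a * s) by
        rw [ht]; linear_combination 4 * a * hs]
      omega
  have hmod4 : a % 4 = 1 → ∀ n, 0 < n →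
      (reduced a n % 4 = 1 ∧ reduced a (n + 1) % 4 = 2) ∨
      (reduced a n % 4 = 2 ∧ reduced a (n + 1) % 4 = 1) := by
    intro ha n hn
    induction n, hn using Nat.le_induction with
    | base => rw [reduced_one, reduced_two]; omega
    | succ m hm ih =>
      rcases ih with ⟨-, h2⟩ | ⟨-, h1⟩
      · refine Or.inr ⟨h2, ?_⟩
        rw [reduced, Int.add_emod, Int.mul_emod, sq, Int.mul_emod (reduced a (m + 1)), h2, ha]
        norm_num
      · refine Or.inl ⟨h1, ?_⟩
        rw [reduced, Int.add_emod, Int.mul_emod, sq, Int.mul_emod (reduced a (m + 1)), h1, ha]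
        norm_num
  rcases h with ⟨ha, ha4⟩ | ⟨ha, ha4⟩
  · have hp := hpos ha
    refine ⟨(reduced a k + reduced a (k + 1)).natAbs, ?_, hcop, fun i hi => ?_⟩
    · have p1 := hp k hk
      have p2 := hp (k + 1) (by omega)
      rcases ha4 with ha4 | ha4
      · rcases hmod4 ha4 k hk with ⟨q1, q2⟩ | ⟨q1, q2⟩ <;> omega
      · have q2 := hmod8 (Or.inl ha4) (k + 1) (by omega)
        rcases (by omega : k = 1 ∨ 2 ≤ k) with rfl | hk2
        · rw [reduced_one, reduced_two] at *; omega
        · have q1 := hmod8 (Or.inl ha4) k hk2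
          omega
    · have e := hstep _ (Int.natAbs_dvd.2 dvd_rfl) i hi
      have e1 : ∀ n, 0 < n → ((mag a n : ℕ) : ℤ) = reduced a n := fun n hn =>
        Int.natAbs_of_nonneg (hp n hn).le
      have e2 : ∀ n, 0 < n → ((mag a n : ℕ) :
          ZMod (reduced a k + reduced a (k + 1)).natAbs) = ((reduced a n : ℤ) : _) := fun n hn =>
        (Int.cast_natCast _).symm.trans (congrArg _ (e1 n hn))
      rw [e2 i (by omega), e2 k hk]
      exact e
  · have hn := hneg ha ha4
    rcases (by omega : k = 1 ∨ 2 ≤ k) with rfl | hk2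
    · refine ⟨4, Or.inl rfl, by simp [mag, reduced_one], fun i hi => ?_⟩
      have q := hmod8 (Or.inr ha4) i hi
      have h3 : (mag a i) % 4 = 3 := by
        have := hn i hi
        unfold mag
        omega
      rw [← ZMod.natCast_mod, h3, mag, reduced_one, Int.natAbs_one]
      decide
    · refine ⟨(reduced a k + reduced a (k + 1)).natAbs, ?_, hcop, fun i hi => ?_⟩
      · have p1 := hn k hk2
        have p2 := hn (k + 1) (by omega)
        have q1 := hmod8 (Or.inr ha4) k hk2
        have q2 := hmod8 (Or.inr ha4) (k + 1) (by omega)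
        omega
      · have e := hstep _ (Int.natAbs_dvd.2 dvd_rfl) i hi
        have e1 : ∀ n, 2 ≤ n → ((mag a n : ℕ) : ℤ) = -reduced a n := fun n hn2 =>
          Int.ofNat_natAbs_of_nonpos (hn n hn2).le
        rw [eq_comm, neg_eq_iff_eq_neg] at e
        have ei := e1 i (by omega)
        have ek := e1 k hk2
        rw [← Int.cast_natCast, ei, ← Int.cast_natCast (R := ZMod _) (mag a k), ek, Int.cast_neg,
          Int.cast_neg, e, neg_neg]

/-- The even and odd subsets of a non-empty set. -/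
theorem card_filter_even_eq {α : Type*} [DecidableEq α] {P : Finset α} (h : P.Nonempty) :
    (P.powerset.filter fun s => Even s.card).card =
      (P.powerset.filter fun s => ¬Even s.card).card := by
  have h0 := Finset.sum_powerset_neg_one_pow_card_of_nonempty h
  rw [← Finset.sum_filter_add_sum_filter_not P.powerset fun s => Even s.card] at h0
  have e1 : ∑ s ∈ P.powerset.filter (fun s => Even s.card), (-1 : ℤ) ^ s.card =
      ((P.powerset.filter fun s => Even s.card).card : ℤ) := by
    rw [Finset.card_eq_sum_ones, Nat.cast_sum]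
    exact Finset.sum_congr rfl fun s hs => by simp [(Finset.mem_filter.1 hs).2.neg_one_pow]
  have e2 : ∑ s ∈ P.powerset.filter (fun s => ¬Even s.card), (-1 : ℤ) ^ s.card =
      -((P.powerset.filter fun s => ¬Even s.card).card : ℤ) := by
    rw [Finset.card_eq_sum_ones, Nat.cast_sum, ← Finset.sum_neg_distrib]
    exact Finset.sum_congr rfl fun s hs => by
      simp [(Nat.not_even_iff_odd.1 (Finset.mem_filter.1 hs).2).neg_one_pow]
  rw [e1, e2] at h0
  omega

theorem prod_dvd_primeFactors {n : ℕ} {s : Finset ℕ} (hs : s ⊆ n.primeFactors) :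
    ∏ q ∈ s, q ∣ n :=
  (Finset.prod_dvd_prod_of_subset _ _ _ hs).trans (Nat.prod_primeFactors_dvd n)

theorem subset_iff_prod_dvd {n t : ℕ} (ht : t ≠ 0) {s : Finset ℕ} (hs : s ⊆ n.primeFactors) :
    (∏ q ∈ s, q) ∣ t ↔ s ⊆ t.primeFactors := by
  constructor
  · intro h q hq
    exact Nat.mem_primeFactors.2
      ⟨Nat.prime_of_mem_primeFactors (hs hq), (Finset.dvd_prod_of_mem _ hq).trans h, ht⟩
  · exact prod_dvd_primeFactors

theorem dvd_reduced_iff {a : ℤ} {p : ℕ} (hp : p.Prime) (hpa : ¬(p : ℤ) ∣ a) {m : ℕ} :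
    (p : ℤ) ∣ reduced a m ↔ (p : ℤ) ∣ orbit a m := by
  rw [orbit_eq]
  exact ⟨fun h => h.mul_left a,
    fun h => ((Nat.prime_iff_prime_int.1 hp).dvd_or_dvd h).resolve_left hpa⟩

theorem padicValInt_orbit {a : ℤ} {p : ℕ} [hp : Fact p.Prime] (hpa : ¬(p : ℤ) ∣ a) {m : ℕ}
    (h0 : reduced a m ≠ 0) : padicValNat p (mag a m) = padicValInt p (orbit a m) := by
  have ha : a ≠ 0 := fun h => hpa (h ▸ dvd_zero _)
  rw [orbit_eq, padicValInt.mul ha h0, padicValInt.eq_zero_of_not_dvd hpa, zero_add]
  rfl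

/-- **Stoll's lemma.** -/
theorem exists_odd_primitive {a : ℤ} (h : StollCondition a) {n : ℕ} (hn : 3 ≤ n) :
    ∃ p : ℕ, p.Prime ∧ p ≠ 2 ∧ ¬(p : ℤ) ∣ a ∧ IsRank a p n ∧
      Odd (padicValInt p (orbit a n)) := by
  obtain ⟨h0, h1, h2⟩ := h.ne
  -- a primitive prime is odd
  have htwo : ∀ p : ℕ, p.Prime → ¬(p : ℤ) ∣ a → IsRank a p n → p ≠ 2 := by
    rintro p - hpa hr rfl
    refine hr.2.2 2 (by omega) (by omega) ?_
    rw [orbit_two, show a ^ 2 + a = a * (a + 1) by ring]
    exact ((Int.even_mul_succ_self a).two_dvd)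
  by_contra! hno
  have hev : ∀ p : ℕ, p.Prime → ¬(p : ℤ) ∣ a → IsRank a p n → Even (padicValNat p (mag a n)) := by
    intro p hp hpa hr
    have := Fact.mk hp
    rw [padicValInt_orbit hpa (Int.natAbs_ne_zero.1 (mag_ne_zero h (by omega)))]
    exact Nat.not_odd_iff_even.1 (hno p hp (htwo p hp hpa hr) hpa hr)
  classical
  set P := n.primeFactors with hP
  have hn0 : n ≠ 0 := by omega
  have hPne : P.Nonempty := Nat.nonempty_primeFactors.2 (by omega)
  set r := ∏ q ∈ P, q with hr
  have hrd : r ∣ n := Nat.prod_primeFactors_dvd n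
  obtain ⟨k, hk⟩ := hrd
  have hk0 : 0 < k := Nat.pos_of_ne_zero fun h => by rw [h, mul_zero] at hk; omega
  have hr0 : 0 < r := Finset.prod_pos fun q hq => (Nat.prime_of_mem_primeFactors hq).pos
  set f : Finset ℕ → ℕ := fun s => n / ∏ q ∈ s, q with hf
  have hfpos : ∀ s ∈ P.powerset, 0 < f s := fun s hs =>
    Nat.div_pos (Nat.le_of_dvd (by omega) (prod_dvd_primeFactors (Finset.mem_powerset.1 hs)))
      (Finset.prod_pos fun q hq =>
        (Nat.prime_of_mem_primeFactors (Finset.mem_powerset.1 hs hq)).pos)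
  set S := (mag a n).primeFactors.filter fun p => IsRank a p n with hS
  set b := ∏ p ∈ S, p ^ padicValNat p (mag a n) with hb
  have hSprime : ∀ p ∈ S, p.Prime := fun p hp =>
    Nat.prime_of_mem_primeFactors (Finset.mem_filter.1 hp).1
  have hb0 : b ≠ 0 := Finset.prod_ne_zero_iff.2 fun p hp => pow_ne_zero _ (hSprime p hp).ne_zero
  -- the primitive part is a square
  have hSa : ∀ p ∈ S, ¬(p : ℤ) ∣ a := fun p hp hpa =>
    not_dvd_reduced (hSprime p hp) hpa (show 0 < n by omega)
      (Int.natCast_dvd.2 (Nat.dvd_of_mem_primeFactors (Finset.mem_filter.1 hp).1))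
  obtain ⟨x, hx⟩ : ∃ x, b = x ^ 2 := by
    refine ⟨∏ p ∈ S, p ^ (padicValNat p (mag a n) / 2), ?_⟩
    rw [← Finset.prod_pow]
    refine Finset.prod_congr rfl fun p hp => ?_
    rw [← pow_mul, Nat.div_mul_cancel
      (hev p (hSprime p hp) (hSa p hp) (Finset.mem_filter.1 hp).2).two_dvd]
  -- the product identity
  set Ev := P.powerset.filter fun s => Even s.card with hEv
  set Od := P.powerset.filter fun s => ¬Even s.card with hOd
  have hne : ∀ T, T ⊆ P.powerset → ∏ s ∈ T, mag a (f s) ≠ 0 := fun T hT =>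
    Finset.prod_ne_zero_iff.2 fun s hs => mag_ne_zero h (hfpos s (hT hs))
  have hid : ∏ s ∈ Ev, mag a (f s) = b * ∏ s ∈ Od, mag a (f s) := by
    refine Nat.eq_of_factorization_eq (hne _ (Finset.filter_subset _ _))
      (mul_ne_zero hb0 (hne _ (Finset.filter_subset _ _))) fun p => ?_
    by_cases hp : p.Prime
    swap
    · simp [Nat.factorization_eq_zero_of_not_prime _ hp]
    rw [Nat.factorization_mul hb0 (hne _ (Finset.filter_subset _ _)), Finsupp.add_apply,
      Nat.factorization_prod_apply fun s hs =>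
        mag_ne_zero h (hfpos s (Finset.mem_of_mem_filter s hs)),
      Nat.factorization_prod_apply fun s hs =>
        mag_ne_zero h (hfpos s (Finset.mem_of_mem_filter s hs))]
    have := Fact.mk hp
    have hbp : b.factorization p = if p ∈ S then padicValNat p (mag a n) else 0 := by
      rw [hb, Nat.factorization_prod_apply fun q hq => pow_ne_zero _ (hSprime q hq).ne_zero]
      rw [Finset.sum_congr rfl fun q hq => show (q ^ padicValNat q (mag a n)).factorization p =
        if p = q then padicValNat p (mag a n) else 0 by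
          rw [Nat.Prime.factorization_pow (hSprime q hq), Finsupp.single_apply]
          by_cases e : q = p
          · subst e; simp
          · rw [if_neg e, if_neg (Ne.symm e)]]
      exact Finset.sum_ite_eq S p _
    by_cases hgood : ¬(p : ℤ) ∣ a ∧ ∃ s ∈ P.powerset, (p : ℤ) ∣ orbit a (f s)
    · obtain ⟨hpa, s₀, hs₀, hd⟩ := hgood
      obtain ⟨ρ, hρ, -⟩ := exists_rank a p (hfpos s₀ hs₀) hd
      have hs₀' := prod_dvd_primeFactors (Finset.mem_powerset.1 hs₀)
      have hρn : ρ ∣ n := ((dvd_iff_rank hρ (hfpos s₀ hs₀)).1 hd).trans (Nat.div_dvd_of_dvd hs₀')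
      obtain ⟨t, ht⟩ := hρn
      have ht0 : t ≠ 0 := fun h => by rw [h, mul_zero] at ht; omega
      set e := padicValInt p (orbit a ρ)
      have hval : ∀ s ∈ P.powerset, (mag a (f s)).factorization p =
          if s ⊆ t.primeFactors then e else 0 := by
        intro s hs
        have hs' := Finset.mem_powerset.1 hs
        have hiff : (p : ℤ) ∣ orbit a (f s) ↔ s ⊆ t.primeFactors := by
          rw [dvd_iff_rank hρ (hfpos s hs), ← subset_iff_prod_dvd ht0 hs',
            Nat.dvd_div_iff_mul_dvd (prod_dvd_primeFactors hs'), ht, mul_comm (∏ q ∈ s, q) ρ,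
            Nat.mul_dvd_mul_iff_left hρ.1]
        split_ifs with hsub
        · rw [Nat.factorization_def _ hp,
            padicValInt_orbit hpa (Int.natAbs_ne_zero.1 (mag_ne_zero h (hfpos s hs)))]
          exact padicValInt_eq hρ (orbit_ne_zero h0 h1 h2 hρ.1) (hfpos s hs)
            ((dvd_iff_rank hρ (hfpos s hs)).1 (hiff.2 hsub))
        · refine Nat.factorization_eq_zero_of_not_dvd fun hd' => hsub (hiff.1 ?_)
          exact (dvd_reduced_iff hp hpa).1 (Int.natCast_dvd.2 hd')
      have hsum : ∀ (Q : Finset ℕ → Prop) [DecidablePred Q],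
          ∑ s ∈ P.powerset.filter Q, (mag a (f s)).factorization p =
            ((t.primeFactors).powerset.filter Q).card * e := by
        intro Q _
        rw [Finset.sum_congr rfl fun s hs => hval s (Finset.mem_of_mem_filter s hs),
          ← Finset.sum_filter, Finset.sum_const, smul_eq_mul]
        congr 2
        ext s
        simp only [Finset.mem_filter, Finset.mem_powerset]
        constructor
        · rintro ⟨⟨-, hQ⟩, hsub⟩
          exact ⟨hsub, hQ⟩
        · rintro ⟨hsub, hQ⟩
          refine ⟨⟨hsub.trans (Nat.primeFactors_mono ?_ hn0), hQ⟩, hsub⟩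
          exact ⟨ρ, by rw [ht, mul_comm]⟩
      rw [hbp, hsum, hsum]
      by_cases ht1 : t = 1
      · subst ht1
        rw [mul_one] at ht
        subst ht
        have hemp : f ∅ = n := by simp [f]
        have hmem : p ∈ S := by
          refine Finset.mem_filter.2 ⟨Nat.mem_primeFactors.2 ⟨hp, ?_, mag_ne_zero h (by omega)⟩, hρ⟩
          exact Int.natCast_dvd.1 ((dvd_reduced_iff hp hpa).2 hρ.2.1)
        rw [if_pos hmem, padicValInt_orbit hpa (Int.natAbs_ne_zero.1 (mag_ne_zero h (by omega))),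
          Nat.primeFactors_one, Finset.powerset_empty]
        simp [Finset.filter_singleton, e]
      · have hnotS : p ∉ S := fun hmem => by
          have hρ' := (Finset.mem_filter.1 hmem).2
          have hle : n ≤ ρ := by
            by_contra! hlt
            exact hρ'.2.2 ρ hρ.1 hlt hρ.2.1
          have h2t : 2 ≤ t := by omega
          have := Nat.mul_le_mul (le_refl ρ) h2t
          omega
        rw [if_neg hnotS, card_filter_even_eq (Nat.nonempty_primeFactors.2 (by omega)), zero_add]
    · have hzero : ∀ s ∈ P.powerset, (mag a (f s)).factorization p = 0 := fun s hs => by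
        refine Nat.factorization_eq_zero_of_not_dvd fun hd => ?_
        by_cases hpa : (p : ℤ) ∣ a
        · exact not_dvd_reduced hp hpa (hfpos s hs) (Int.natCast_dvd.2 hd)
        · exact hgood ⟨hpa, s, hs, (dvd_reduced_iff hp hpa).1 (Int.natCast_dvd.2 hd)⟩
      have hnotS : p ∉ S := fun hmem => hgood ⟨hSa p hmem, ∅, Finset.empty_mem_powerset P, by
        simpa [f] using (Finset.mem_filter.1 hmem).2.2.1⟩
      rw [hbp, if_neg hnotS, Finset.sum_eq_zero fun s hs => hzero s (Finset.mem_of_mem_filter s hs),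
        Finset.sum_eq_zero fun s hs => hzero s (Finset.mem_of_mem_filter s hs), zero_add]
  -- the congruence
  obtain ⟨M, hM, hcop, hper⟩ := exists_modulus h hk0
  set g : ZMod M := ((mag a k : ℕ) : ZMod M) with hg
  have hgu : IsUnit g := (ZMod.isUnit_iff_coprime _ _).2 hcop
  have hterm : ∀ s ∈ P.powerset, ((mag a (f s) : ℕ) : ZMod M) = if s = P then g else -g := by
    intro s hs
    have hs' := Finset.mem_powerset.1 hs
    split_ifs with he
    · subst he
      rw [hg]
      simp only [f]
      rw [← hr, hk, Nat.mul_div_cancel_left _ hr0]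
    · refine hper _ ?_
      obtain ⟨q, hqP, hqs⟩ := Finset.exists_of_ssubset (lt_of_le_of_ne hs' he)
      have hdvd : (∏ q ∈ insert q s, q) ∣ r :=
        Finset.prod_dvd_prod_of_subset _ _ _ (Finset.insert_subset hqP hs')
      rw [Finset.prod_insert hqs] at hdvd
      have hq2 := (Nat.prime_of_mem_primeFactors hqP).two_le
      set π := ∏ q ∈ s, q
      have hπ : 0 < π := Finset.prod_pos fun q hq => (Nat.prime_of_mem_primeFactors (hs' hq)).pos
      have hle : q * π ≤ r := Nat.le_of_dvd hr0 hdvd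
      have h2π : 2 * π ≤ r := (Nat.mul_le_mul_right π hq2).trans hle
      show k < n / π
      rw [Nat.lt_iff_add_one_le, Nat.le_div_iff_mul_le hπ, hk]
      calc (k + 1) * π ≤ 2 * k * π := Nat.mul_le_mul_right π (by omega)
        _ = 2 * π * k := by ring
        _ ≤ r * k := Nat.mul_le_mul_right k h2π
  have hcong := congrArg (fun m : ℕ => (m : ZMod M)) hid
  simp only [Nat.cast_mul, Nat.cast_prod] at hcong
  rw [Finset.prod_congr rfl fun s hs => hterm s (Finset.mem_of_mem_filter s hs),
    Finset.prod_congr rfl fun s hs => hterm s (Finset.mem_of_mem_filter s hs)] at hcong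
  have hval : ∀ T, T ⊆ P.powerset →
      (∏ s ∈ T, if s = P then g else -g) = (if P ∈ T then -1 else 1) * (-g) ^ T.card := by
    intro T hT
    have e : ∀ s, (if s = P then g else -g) = (if s = P then (-1 : ZMod M) else 1) * -g :=
      fun s => by
      split_ifs <;> ring
    simp only [e, Finset.prod_mul_distrib, Finset.prod_const, Finset.prod_ite_eq']
  rw [hval _ (Finset.filter_subset _ _), hval _ (Finset.filter_subset _ _),
    card_filter_even_eq hPne] at hcong
  have hPm : P ∈ Ev ↔ P ∉ Od := by simp [Ev, Od]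
  have hbm : (b : ZMod M) = -1 := by
    have hu : IsUnit ((-g) ^ Od.card) := hgu.neg.pow _
    rw [← hOd, ← mul_assoc] at hcong
    have e := hu.mul_right_cancel hcong
    by_cases hP' : P ∈ Od
    · rw [if_neg (fun h' => (hPm.1 h') hP'), if_pos hP'] at e
      rw [mul_neg, mul_one] at e
      exact eq_neg_iff_add_eq_zero.2 (by rw [e]; ring)
    · rw [if_pos (hPm.2 hP'), if_neg hP', mul_one] at e
      exact e.symm
  rw [hx, Nat.cast_pow] at hbm
  refine not_sq_neg_one hM x ?_
  rw [← ZMod.natCast_eq_zero_iff _ M]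
  push_cast
  rw [hbm]
  ring

end FA.Arboreal
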