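import Mathlib.RingTheory.Int.Basic
import Mathlib.Data.Nat.GCD.Basic
import Mathlib.NumberTheory.Padics.PadicVal.Basic
import Mathlib.Algebra.Ring.GeomSum
import Mathlib.Tactic.Linarith
import Mathlib.Tactic.Ring
import Mathlib.Tactic.LinearCombination

/-!
# The critical orbit of `X² + a`

The orbit `0, a, a² + a, …` of `0` is a rigid divisibility sequence, and each of its terms from
the second on has a primitive prime divisor unless `a ∈ {0, -1, -2}` (Rice).
-/

set_option autoImplicit false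

namespace FA.Arboreal

/-- The orbit of `0` under `x ↦ x² + a`. -/
def orbit (a : ℤ) : ℕ → ℤ
  | 0 => 0
  | n + 1 => orbit a n ^ 2 + a

@[simp] theorem orbit_zero (a : ℤ) : orbit a 0 = 0 := rfl

theorem orbit_succ (a : ℤ) (n : ℕ) : orbit a (n + 1) = orbit a n ^ 2 + a := rfl

theorem orbit_one (a : ℤ) : orbit a 1 = a := by simp [orbit_succ]

theorem orbit_two (a : ℤ) : orbit a 2 = a ^ 2 + a := by simp [orbit_succ]

/-- `p` first divides the orbit at `r`. -/
def IsRank (a : ℤ) (p r : ℕ) : Prop :=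
  0 < r ∧ (p : ℤ) ∣ orbit a r ∧ ∀ d, 0 < d → d < r → ¬(p : ℤ) ∣ orbit a d

theorem exists_rank (a : ℤ) (p : ℕ) {n : ℕ} (hn : 0 < n) (h : (p : ℤ) ∣ orbit a n) :
    ∃ r, IsRank a p r ∧ r ≤ n := by
  classical
  have hex : ∃ d, 0 < d ∧ (p : ℤ) ∣ orbit a d := ⟨n, hn, h⟩
  exact ⟨Nat.find hex, ⟨(Nat.find_spec hex).1, (Nat.find_spec hex).2,
    fun d hd hlt hdvd => Nat.find_min hex hlt ⟨hd, hdvd⟩⟩, Nat.find_min' hex ⟨hn, h⟩⟩

/-- If `M ∣ (orbit r)²` the orbit is periodic of period `r` modulo `M`. -/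
theorem orbit_periodic (a : ℤ) {M : ℤ} {r : ℕ} (h : M ∣ orbit a r ^ 2) (j i : ℕ) :
    M ∣ orbit a (i + 1 + j * r) - orbit a (i + 1) := by
  induction j generalizing i with
  | zero => simp
  | succ j ih =>
    have step : ∀ i, M ∣ orbit a (i + 1 + r) - orbit a (i + 1) := by
      intro i
      induction i with
      | zero =>
        rw [show 0 + 1 + r = r + 1 by omega, orbit_succ, Nat.zero_add, orbit_one,
          add_sub_cancel_right]
        exact h
      | succ i hi =>
        rw [show i + 1 + 1 + r = i + 1 + r + 1 by omega, orbit_succ _ (i + 1 + r),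
          orbit_succ _ (i + 1),
          show orbit a (i + 1 + r) ^ 2 + a - (orbit a (i + 1) ^ 2 + a) =
            (orbit a (i + 1 + r) + orbit a (i + 1)) * (orbit a (i + 1 + r) - orbit a (i + 1))
            by ring]
        exact hi.mul_left _
    have h1 := (ih (i + r)).add (step i)
    rw [show i + r + 1 + j * r = i + 1 + (j + 1) * r by ring,
      show i + r + 1 = i + 1 + r by ring, sub_add_sub_cancel] at h1
    exact h1

/-- Rigid divisibility: the terms divisible by `p` are those at multiples of the rank. -/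
theorem dvd_iff_rank {a : ℤ} {p r : ℕ} (hr : IsRank a p r) {m : ℕ} (hm : 0 < m) :
    (p : ℤ) ∣ orbit a m ↔ r ∣ m := by
  obtain ⟨hr0, hrd, hmin⟩ := hr
  have hm' : (m - 1) % r + 1 + (m - 1) / r * r = m := by
    have := Nat.mod_add_div' (m - 1) r
    omega
  have hper := orbit_periodic a (M := (p : ℤ)) (hrd.trans (dvd_pow_self _ two_ne_zero))
    ((m - 1) / r) ((m - 1) % r)
  rw [hm'] at hper
  rw [dvd_iff_dvd_of_dvd_sub hper]
  have hlt := Nat.mod_lt (m - 1) hr0
  constructor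
  · intro h
    have he : (m - 1) % r + 1 = r := by
      by_contra hne
      exact hmin _ (Nat.succ_pos _) (by omega) h
    exact ⟨(m - 1) / r + 1, by
      calc m = (m - 1) % r + 1 + (m - 1) / r * r := hm'.symm
        _ = r * ((m - 1) / r + 1) := by rw [he]; ring⟩
  · rintro ⟨t, rfl⟩
    have ht : 0 < t := Nat.pos_of_mul_pos_left hm
    have he : (r * t - 1) % r + 1 = r := by
      obtain ⟨s, rfl⟩ : ∃ s, t = s + 1 := ⟨t - 1, by omega⟩
      rw [show r * (s + 1) - 1 = (r - 1) + r * s by rw [Nat.mul_succ]; omega,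
        Nat.add_mul_mod_self_left,
        Nat.mod_eq_of_lt (by omega)]
      omega
    rw [he]
    exact hrd

/-- Rigid divisibility: the multiplicity of `p` is the same at all multiples of the rank. -/
theorem padicValInt_eq {a : ℤ} {p r : ℕ} [hp : Fact p.Prime] (hr : IsRank a p r)
    (hne : orbit a r ≠ 0) {m : ℕ} (hm : 0 < m) (hrm : r ∣ m) :
    padicValInt p (orbit a m) = padicValInt p (orbit a r) := by
  obtain ⟨t, rfl⟩ := hrm
  obtain ⟨s, rfl⟩ : ∃ s, t = s + 1 := ⟨t - 1, by have := Nat.pos_of_mul_pos_left hm; omega⟩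
  set e := padicValInt p (orbit a r) with he
  have he1 : 1 ≤ e := one_le_padicValNat_of_dvd (Int.natAbs_ne_zero.2 hne)
    (Int.natCast_dvd.1 hr.2.1)
  have hpe : (p : ℤ) ^ e ∣ orbit a r := padicValInt_dvd _
  have hsq : (p : ℤ) ^ (e + 1) ∣ orbit a r ^ 2 := by
    refine (pow_dvd_pow _ (by omega : e + 1 ≤ e * 2)).trans ?_
    rw [pow_mul]
    exact pow_dvd_pow_of_dvd hpe 2
  have hper := orbit_periodic a hsq s (r - 1)
  rw [show r - 1 + 1 + s * r = r * (s + 1) by
      have := hr.1; rw [Nat.mul_succ, mul_comm s]; omega,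
    show r - 1 + 1 = r by have := hr.1; omega] at hper
  have hnd : ¬(p : ℤ) ^ (e + 1) ∣ orbit a r := by
    rw [padicValInt_dvd_iff]
    push Not
    exact ⟨hne, by omega⟩
  have hnd' : ¬(p : ℤ) ^ (e + 1) ∣ orbit a (r * (s + 1)) := by
    rwa [dvd_iff_dvd_of_dvd_sub hper]
  have hd' : (p : ℤ) ^ e ∣ orbit a (r * (s + 1)) :=
    (dvd_iff_dvd_of_dvd_sub ((pow_dvd_pow _ e.le_succ).trans hper)).2 hpe
  have hne' : orbit a (r * (s + 1)) ≠ 0 := fun h => hnd' (h ▸ dvd_zero _)
  rw [padicValInt_dvd_iff] at hnd' hd'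
  push Not at hnd'
  rcases hd' with h | h
  · exact absurd h hne'
  · have := hnd'.2
    omega

/-! ### Growth and primitive divisors -/

theorem abs_lt_orbit {a : ℤ} (h0 : a ≠ 0) (h1 : a ≠ -1) (h2 : a ≠ -2) (n : ℕ) :
    |a| < |orbit a (n + 2)| := by
  induction n with
  | zero =>
    rw [orbit_two, show a ^ 2 + a = a * (a + 1) by ring, abs_mul]
    refine lt_mul_of_one_lt_right (abs_pos.2 h0) ?_
    rw [lt_abs]
    omega
  | succ n ih =>
    have ha : 1 ≤ |a| := Int.one_le_abs h0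
    have h := abs_sub_abs_le_abs_sub (orbit a (n + 2) ^ 2) (-a)
    rw [sub_neg_eq_add, abs_neg, abs_pow] at h
    rw [orbit_succ]
    nlinarith

theorem orbit_ne_zero {a : ℤ} (h0 : a ≠ 0) (h1 : a ≠ -1) (h2 : a ≠ -2) {n : ℕ} (hn : 0 < n) :
    orbit a n ≠ 0 := by
  rcases n with _ | _ | n
  · omega
  · rwa [orbit_one]
  · intro h
    have := abs_lt_orbit h0 h1 h2 n
    rw [h, abs_zero] at this
    exact absurd this (not_lt.2 (abs_nonneg a))

theorem prod_lt_orbit {a : ℤ} (h0 : a ≠ 0) (h1 : a ≠ -1) (h2 : a ≠ -2) (n : ℕ) :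
    ∏ d ∈ Finset.Icc 1 (n + 1), |orbit a d| < |orbit a (n + 2)| := by
  induction n with
  | zero =>
    have := abs_lt_orbit h0 h1 h2 0
    simpa [orbit_one] using this
  | succ n ih =>
    rw [Finset.prod_Icc_succ_top (by omega)]
    set x := |orbit a (n + 1 + 1)| with hx
    have hax : |a| < x := abs_lt_orbit h0 h1 h2 n
    have ha : 1 ≤ |a| := Int.one_le_abs h0
    have h := abs_sub_abs_le_abs_sub (orbit a (n + 2) ^ 2) (-a)
    rw [sub_neg_eq_add, abs_neg, abs_pow, ← orbit_succ] at h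
    have h' : (∏ d ∈ Finset.Icc 1 (n + 1), |orbit a d|) * x ≤ (x - 1) * x :=
      mul_le_mul_of_nonneg_right (by omega) (abs_nonneg _)
    nlinarith

/-- A prime is primitive at `n` if it divides that term of the orbit and no earlier one. -/
theorem exists_primitive {a : ℤ} (h0 : a ≠ 0) (h1 : a ≠ -1) (h2 : a ≠ -2) {n : ℕ} (hn : 2 ≤ n) :
    ∃ p : ℕ, p.Prime ∧ IsRank a p n := by
  by_contra! hno
  obtain ⟨k, rfl⟩ : ∃ k, n = k + 2 := ⟨n - 2, by omega⟩
  have hx0 : (orbit a (k + 2)).natAbs ≠ 0 :=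
    Int.natAbs_ne_zero.2 (orbit_ne_zero h0 h1 h2 (by omega))
  have hP : ∏ d ∈ Finset.Icc 1 (k + 1), (orbit a d).natAbs ≠ 0 :=
    Finset.prod_ne_zero_iff.2 fun d hd =>
      Int.natAbs_ne_zero.2 (orbit_ne_zero h0 h1 h2 (Finset.mem_Icc.1 hd).1)
  have hdvd : (orbit a (k + 2)).natAbs ∣ ∏ d ∈ Finset.Icc 1 (k + 1), (orbit a d).natAbs := by
    rw [← Nat.factorization_prime_le_iff_dvd hx0 hP]
    intro p hp
    have := Fact.mk hp
    by_cases hd : (p : ℤ) ∣ orbit a (k + 2)
    · obtain ⟨r, hr, hrn⟩ := exists_rank a p (by omega) hd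
      have hrne : r ≠ k + 2 := fun h => hno p hp (h ▸ hr)
      have hmem : r ∈ Finset.Icc 1 (k + 1) := Finset.mem_Icc.2 ⟨hr.1, by omega⟩
      have hv := padicValInt_eq hr (orbit_ne_zero h0 h1 h2 hr.1) (by omega : 0 < k + 2)
        ((dvd_iff_rank hr (by omega)).1 hd)
      rw [Nat.factorization_def _ hp, Nat.factorization_def _ hp]
      unfold padicValInt at hv
      rw [hv]
      have := Fact.mk hp
      exact (padicValNat_dvd_iff_le hP).1
        (pow_padicValNat_dvd.trans (Finset.dvd_prod_of_mem _ hmem))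
    · rw [Nat.factorization_eq_zero_of_not_dvd fun h => hd (Int.natCast_dvd.2 h)]
      exact Nat.zero_le _
  have hlt := prod_lt_orbit h0 h1 h2 k
  have hle := Nat.le_of_dvd (Nat.pos_of_ne_zero hP) hdvd
  have e : ∏ d ∈ Finset.Icc 1 (k + 1), |orbit a d| =
      ((∏ d ∈ Finset.Icc 1 (k + 1), (orbit a d).natAbs : ℕ) : ℤ) := by
    push_cast; rfl
  rw [e, Int.abs_eq_natAbs] at hlt
  omega

/-- **Infinitely many primes divide the orbit.** -/
theorem infinite_prime_divisors {a : ℤ} (h0 : a ≠ 0) (h1 : a ≠ -1) (h2 : a ≠ -2) :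
    {p : ℕ | p.Prime ∧ ∃ n, 0 < n ∧ (p : ℤ) ∣ orbit a n}.Infinite := by
  intro hfin
  choose f hfp hfr using fun n : ℕ => exists_primitive h0 h1 h2 (n := n + 2) (by omega)
  have hinj : Function.Injective f := by
    intro m n h
    have hm := hfr m
    rw [h] at hm
    have hn := hfr n
    rcases lt_trichotomy m n with hlt | heq | hlt
    · exact absurd hm.2.1 (hn.2.2 _ (by omega) (by omega))
    · exact heq
    · exact absurd hn.2.1 (hm.2.2 _ (by omega) (by omega))
  exact Set.infinite_range_of_injective hinj (hfin.subset (by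
    rintro p ⟨n, rfl⟩
    exact ⟨hfp n, n + 2, by omega, (hfr n).2.1⟩))

end FA.Arboreal
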