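import Fermat.Agent.Arboreal.Iterate
import Mathlib.GroupTheory.RegularWreathProduct
import Mathlib.GroupTheory.PGroup
import Mathlib.FieldTheory.Galois.Basic

/-!
# Stoll's theorem

For `a` as in `StollCondition` with `-a` not a square the iterates of `X² + a` are irreducible and
their Galois groups are the full iterated wreath products of the group of order two.
-/

set_option autoImplicit false

noncomputable section

open Polynomial IntermediateField

namespace FA.Arboreal

attribute [local instance] isAlgebraic_qbar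

variable {a : ℤ}

theorem prod_sub_eq (h : StollCondition a) {m : ℕ} (hm : 0 < m) :
    ∏ β ∈ iterRoots a m, (β - (a : Qbar)) = ((orbit a (m + 1) : ℤ) : Qbar) := by
  have hprod : (iterPoly a m).map (algebraMap ℚ Qbar) =
      ∏ β ∈ iterRoots a m, (X - C β) := by
    have e := (IsAlgClosed.splits ((iterPoly a m).map (algebraMap ℚ Qbar))).eq_prod_roots_of_monic
      ((iterPoly_monic a m).map _)
    rw [← aroots_def, aroots_iterPoly h] at e
    exact e
  have e1 : aeval ((a : ℤ) : Qbar) (iterPoly a m) = ∏ β ∈ iterRoots a m, ((a : Qbar) - β) := by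
    rw [← eval_map_algebraMap, hprod, eval_prod]
    simp
  rw [← aeval_iterPoly_a, e1, Finset.prod_congr rfl fun β _ =>
    show β - (a : Qbar) = -1 * ((a : Qbar) - β) by ring, Finset.prod_mul_distrib, Finset.prod_const,
    card_iterRoots h, Even.neg_one_pow (Nat.even_pow.2 ⟨even_two, by omega⟩), one_mul]

/-- An automorphism of the splitting field permutes the roots. -/
theorem aut_mem_iterRoots {m : ℕ} (σ : iterField a m ≃ₐ[ℚ] iterField a m) {β : iterField a m}
    (hβ : (β : Qbar) ∈ iterRoots a m) : ((σ β : iterField a m) : Qbar) ∈ iterRoots a m := by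
  rw [mem_iterRoots] at hβ ⊢
  have e : aeval β (iterPoly a m) = 0 := by
    apply Subtype.ext
    show (iterField a m).val (aeval β (iterPoly a m)) = 0
    rw [← aeval_algHom_apply]
    exact hβ
  have e2 := congrArg (fun x : iterField a m => ((σ x : iterField a m) : Qbar)) e
  simp only [← Polynomial.aeval_algHom_apply, map_zero, ZeroMemClass.coe_zero] at e2
  rw [← e2]
  exact (aeval_algHom_apply (iterField a m).val (σ β) (iterPoly a m))

open scoped Classical in
/-- No non-empty product of the square roots lies in the field below. -/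
theorem prod_sqrtSet_notMem (h : StollCondition a) (hsq : ¬IsSquare (-a)) {m : ℕ}
    (hdeg : Module.finrank ℚ (iterField a m) * 2 = 2 ^ 2 ^ m)
    (hirr : Irreducible (iterPoly a m)) :
    ∀ S : Finset Qbar, S ⊆ sqrtSet a m → S.Nonempty → ∏ s ∈ S, s ∉ iterField a m := by
  intro S hS hne hmem
  rcases Nat.eq_zero_or_pos m with rfl | hm
  · have hT : sqrtSet a 0 = {sqrtQbar (0 - (a : Qbar))} := by simp [sqrtSet, iterRoots]
    rw [hT, Finset.subset_singleton_iff] at hS
    rcases hS with rfl | rfl
    · simp at hne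
    rw [iterField_zero, Finset.prod_singleton] at hmem
    refine not_sq_bot hsq hmem ?_
    rw [sqrtQbar_sq]
    push_cast
    ring
  set K := iterField a m with hK
  have := finiteDimensional_iterField a m
  have := isSplittingField_iterField h m
  have : Normal ℚ K := Normal.of_isSplittingField (iterPoly a m)
  have : IsGalois ℚ K := ⟨⟩
  have hP : IsPGroup 2 (K ≃ₐ[ℚ] K) := by
    refine IsPGroup.of_card (n := 2 ^ m - 1) ?_
    rw [IsGalois.card_aut_eq_finrank]
    have h1 : 1 ≤ 2 ^ m := Nat.one_le_two_pow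
    rw [show 2 ^ m = 2 ^ m - 1 + 1 by omega, pow_succ] at hdeg
    omega
  -- the roots inside `K`
  set R : Finset K := (iterRoots a m).preimage Subtype.val Subtype.val_injective.injOn with hR
  have hmemR : ∀ β : K, β ∈ R ↔ (β : Qbar) ∈ iterRoots a m := fun β => Finset.mem_preimage
  let d : K → K := fun β => β - (a : K)
  have hd : ∀ β ∈ R, d β ≠ 0 := fun β hβ he => sub_ne_zero_of_mem h ((hmemR β).1 hβ) (by
    have := congrArg (fun x : K => (x : Qbar)) he
    simpa [d] using this)
  let V : Type := {T : Finset K // T ⊆ R ∧ IsSquare (∏ β ∈ T, d β)}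
  have hVfin : Finite V := Finite.of_injective
    (fun T : V => (⟨T.1, Finset.mem_powerset.2 T.2.1⟩ : R.powerset))
    fun x y e => Subtype.ext (congrArg (fun T : R.powerset => T.1) e)
  let act : MulAction (K ≃ₐ[ℚ] K) V :=
    { smul := fun σ T => ⟨T.1.image σ, by
        refine ⟨fun x hx => ?_, ?_⟩
        · obtain ⟨β, hβ, rfl⟩ := Finset.mem_image.1 hx
          exact (hmemR _).2 (aut_mem_iterRoots σ ((hmemR β).1 (T.2.1 hβ)))
        · rw [Finset.prod_image σ.injective.injOn]
          obtain ⟨y, hy⟩ := T.2.2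
          refine ⟨σ y, ?_⟩
          rw [← map_mul, ← hy, map_prod]
          exact Finset.prod_congr rfl fun β _ => by simp [d]⟩
      one_smul := fun T => Subtype.ext
        (show T.1.image (⇑(1 : K ≃ₐ[ℚ] K)) = T.1 from Finset.image_id)
      mul_smul := fun σ τ T => Subtype.ext (by
        show T.1.image (⇑(σ * τ)) = (T.1.image τ).image σ
        rw [Finset.image_image]
        rfl) }
  -- the given set
  set S₀ : Finset K := R.filter fun β => sqrtQbar ((β : Qbar) - a) ∈ S with hS₀
  have himg : S₀.image (fun β : K => sqrtQbar ((β : Qbar) - a)) = S := by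
    ext s
    simp only [Finset.mem_image, hS₀, Finset.mem_filter]
    constructor
    · rintro ⟨β, ⟨-, hβ⟩, rfl⟩
      exact hβ
    · intro hs
      obtain ⟨β, hβ, rfl⟩ := Finset.mem_image.1 (hS hs)
      exact ⟨⟨β, subset_adjoin ℚ _ hβ⟩, ⟨(hmemR _).2 hβ, hs⟩, rfl⟩
  have hS₀ne : S₀.Nonempty := by
    have h' := hne
    rw [← himg] at h'
    exact Finset.image_nonempty.1 h' 
  have hS₀V : S₀ ⊆ R ∧ IsSquare (∏ β ∈ S₀, d β) := by
    refine ⟨Finset.filter_subset _ _, ⟨⟨∏ s ∈ S, s, hmem⟩, Subtype.ext ?_⟩⟩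
    rw [← sq]
    push_cast
    rw [← himg, Finset.prod_image, ← Finset.prod_pow]
    · exact Finset.prod_congr rfl fun β _ => by rw [sqrtQbar_sq]; simp [d]
    · intro x hx y hy e
      exact Subtype.ext (sqrt_sub_injOn a m ((hmemR x).1 (Finset.mem_filter.1 hx).1)
        ((hmemR y).1 (Finset.mem_filter.1 hy).1) e)
  -- the symmetric difference with it is an involution of `V` without fixed points
  have hsymm : ∀ T : V, symmDiff T.1 S₀ ⊆ R ∧ IsSquare (∏ β ∈ symmDiff T.1 S₀, d β) := by
    rintro ⟨T, hT, hTsq⟩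
    refine ⟨(Finset.union_subset (sdiff_le.trans hT) (sdiff_le.trans hS₀V.1)), ?_⟩
    have e : (∏ β ∈ symmDiff T S₀, d β) * (∏ β ∈ T ∩ S₀, d β) ^ 2 =
        (∏ β ∈ T, d β) * ∏ β ∈ S₀, d β := by
      rw [← Finset.prod_union_inter (s₁ := T) (s₂ := S₀), sq, ← mul_assoc]
      congr 1
      have hdis : Disjoint (symmDiff T S₀) (T ∩ S₀) := Finset.disjoint_left.2 fun x h1 h2 => by
        simp only [Finset.mem_symmDiff, Finset.mem_inter] at h1 h2
        tauto
      have hun : symmDiff T S₀ ∪ T ∩ S₀ = T ∪ S₀ := by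
        ext x
        simp only [Finset.mem_symmDiff, Finset.mem_inter, Finset.mem_union]
        tauto
      rw [← Finset.prod_union hdis, hun]
    obtain ⟨y, hy⟩ := hTsq.mul hS₀V.2
    have h0 : ∏ β ∈ T ∩ S₀, d β ≠ 0 :=
      Finset.prod_ne_zero_iff.2 fun β hβ => hd β (hT (Finset.mem_of_mem_inter_left hβ))
    refine ⟨y / ∏ β ∈ T ∩ S₀, d β, ?_⟩
    rw [div_mul_div_comm, ← hy, ← e, sq, mul_div_assoc, div_self (mul_ne_zero h0 h0), mul_one]
  have heven : 2 ∣ Nat.card V := by
    have := Fintype.ofFinite V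
    rw [Nat.card_eq_fintype_card, ← ZMod.natCast_eq_zero_iff, ← Finset.card_univ,
      Finset.card_eq_sum_ones, Nat.cast_sum]
    refine Finset.sum_involution (fun T _ => (⟨symmDiff T.1 S₀, hsymm T⟩ : V))
      (fun _ _ => by rw [Nat.cast_one]; decide) (fun T _ _ he => ?_) (fun _ _ => Finset.mem_univ _)
      fun T _ => Subtype.ext (symmDiff_symmDiff_cancel_right _ _)
    have e := congrArg Subtype.val he
    exact hS₀ne.ne_empty (symmDiff_eq_left.1 e)
  let empt : V := ⟨∅, Finset.empty_subset R, by rw [Finset.prod_empty]; exact IsSquare.one⟩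
  have hempt : empt ∈ MulAction.fixedPoints (K ≃ₐ[ℚ] K) V := fun σ =>
    Subtype.ext (Finset.image_empty _)
  obtain ⟨T, hTfix, hTne⟩ := hP.exists_fixed_point_of_prime_dvd_card_of_fixed_point V heven hempt
  have hTne' : T.1.Nonempty := Finset.nonempty_iff_ne_empty.2 fun e => hTne (Subtype.ext e.symm)
  obtain ⟨β, hβ⟩ := hTne'
  have hmin : ∀ γ ∈ R, minpoly ℚ γ = iterPoly a m := fun γ hγ => by
    rw [← minpoly.algebraMap_eq (algebraMap K Qbar).injective γ]
    exact (minpoly.eq_of_irreducible_of_monic hirr ((mem_iterRoots a m).1 ((hmemR γ).1 hγ))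
      (iterPoly_monic a m)).symm
  have hall : T.1 = R := Finset.Subset.antisymm T.2.1 fun γ hγ => by
    obtain ⟨σ, hσ⟩ := (Normal.minpoly_eq_iff_mem_orbit K).1
      ((hmin γ hγ).trans (hmin β (T.2.1 hβ)).symm)
    have e := congrArg Subtype.val (hTfix σ)
    rw [← e, ← hσ]
    exact Finset.mem_image_of_mem _ hβ
  obtain ⟨y, hy⟩ := T.2.2
  rw [hall] at hy
  refine not_sq_below h hsq hm _ y.2 ?_
  have e := congrArg (fun x : K => (x : Qbar)) hy
  simp only [IntermediateField.coe_mul] at e
  rw [sq, ← e, ← prod_sub_eq h hm]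
  push_cast
  refine Finset.prod_bij (fun (β : K) _ => (β : Qbar)) (fun β hβ => (hmemR β).1 hβ)
    (fun _ _ _ _ e => Subtype.ext e)
    (fun x hx => ⟨⟨x, subset_adjoin ℚ _ hx⟩, (hmemR _).2 hx, rfl⟩) fun β _ => by simp [d]

/-- The degree of the next field and the irreducibility of the next iterate. -/
theorem tower_main (h : StollCondition a) (hsq : ¬IsSquare (-a)) (m : ℕ) :
    Module.finrank ℚ (iterField a m) * 2 = 2 ^ 2 ^ m ∧ Irreducible (iterPoly a m) := by
  classical
  induction m with
  | zero =>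
    rw [iterField_zero, IntermediateField.finrank_bot, iterPoly]
    exact ⟨rfl, irreducible_X⟩
  | succ m ih =>
    obtain ⟨hdeg, hirr⟩ := ih
    have hind := prod_sqrtSet_notMem h hsq hdeg hirr
    obtain ⟨hd, -⟩ := multiquadratic_aux (iterField a m) (sqrtSet a m) (sqrtSet_sq_mem a m) hind
    rw [← iterField_succ, card_sqrtSet h] at hd
    refine ⟨?_, ?_⟩
    · rw [hd, show 2 ^ (m + 1) = 2 ^ m + 2 ^ m by ring, pow_add,
        mul_right_comm (Module.finrank ℚ (iterField a m)), hdeg]
    -- irreducibility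
    obtain ⟨β, hβ⟩ : (iterRoots a m).Nonempty :=
      Finset.card_pos.1 (by rw [card_iterRoots h]; positivity)
    set r := sqrtQbar (β - (a : Qbar)) with hr
    have hrK : r ∉ iterField a m := fun hmem =>
      hind {r} (Finset.singleton_subset_iff.2 (Finset.mem_image_of_mem _ hβ))
        (Finset.singleton_nonempty r) (by rw [Finset.prod_singleton]; exact hmem)
    have hroot : aeval r (iterPoly a (m + 1)) = 0 := by
      rw [← mem_iterRoots, mem_iterRoots_succ, hr, sqrtQbar_sq, sub_add_cancel]
      exact hβ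
    have hβr : ℚ⟮β⟯ ≤ ℚ⟮r⟯ := by
      rw [adjoin_simple_le_iff, show β = r ^ 2 + (a : Qbar) by rw [hr, sqrtQbar_sq, sub_add_cancel]]
      exact add_mem (pow_mem (mem_adjoin_simple_self ℚ r) 2) (IntermediateField.intCast_mem _ a)
    have hβint : IsIntegral ℚ β := Algebra.IsIntegral.isIntegral β
    have hrint : IsIntegral ℚ r := Algebra.IsIntegral.isIntegral r
    have hβdeg : Module.finrank ℚ ℚ⟮β⟯ = 2 ^ m := by
      rw [adjoin.finrank hβint, ← minpoly.eq_of_irreducible_of_monic hirr
        ((mem_iterRoots a m).1 hβ) (iterPoly_monic a m), iterPoly_natDegree]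
    have := adjoin.finiteDimensional hrint
    have hne : ℚ⟮β⟯ ≠ ℚ⟮r⟯ := fun e => hrK
      ((adjoin_simple_le_iff.2 (subset_adjoin ℚ _ hβ) : ℚ⟮β⟯ ≤ iterField a m)
        (e ▸ mem_adjoin_simple_self ℚ r))
    obtain ⟨k, hk⟩ := finrank_dvd_of_le_right hβr
    rw [hβdeg] at hk
    have hle : Module.finrank ℚ ℚ⟮r⟯ ≤ 2 ^ (m + 1) := by
      rw [adjoin.finrank hrint, ← iterPoly_natDegree a (m + 1)]
      exact natDegree_le_of_dvd (minpoly.dvd ℚ r hroot) (iterPoly_monic a _).ne_zero
    have hpos : 0 < Module.finrank ℚ ℚ⟮r⟯ := Module.finrank_pos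
    have hk1 : k ≠ 1 := fun h1 => hne (eq_of_le_of_finrank_eq hβr (by rw [hβdeg, hk, h1, mul_one]))
    have hk2 : k = 2 := by
      rw [hk, pow_succ] at hle
      have := Nat.le_of_mul_le_mul_left hle (by positivity)
      rcases Nat.eq_zero_or_pos k with h0 | h0
      · rw [hk, h0, mul_zero] at hpos; omega
      · omega
    have hmin : minpoly ℚ r = iterPoly a (m + 1) :=
      (eq_of_monic_of_dvd_of_natDegree_le (minpoly.monic hrint) (iterPoly_monic a _)
        (minpoly.dvd ℚ r hroot) (by
          rw [← adjoin.finrank hrint, hk, hk2, iterPoly_natDegree, pow_succ])).symm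
    rw [← hmin]
    exact minpoly.irreducible hrint

/-- **Stoll's theorem**: the Galois group of the `m`-th iterate has order `2 ^ (2 ^ m - 1)`. -/
theorem card_gal_iterPoly (h : StollCondition a) (hsq : ¬IsSquare (-a)) (m : ℕ) :
    Nat.card (iterPoly a m).Gal = 2 ^ (2 ^ m - 1) := by
  have := isSplittingField_iterField h m
  rw [Polynomial.Gal.card_of_separable (iterPoly_separable h m),
    ← (IsSplittingField.algEquiv (iterField a m) (iterPoly a m)).toLinearEquiv.finrank_eq]
  have e := (tower_main h hsq m).1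
  have h1 : 1 ≤ 2 ^ m := Nat.one_le_two_pow
  rw [show 2 ^ m = 2 ^ m - 1 + 1 by omega, pow_succ] at e
  omega

/-- The Galois group of the `m`-th iterate is the iterated wreath product of the group of order
two. -/
theorem nonempty_gal_mulEquiv (h : StollCondition a) (hsq : ¬IsSquare (-a)) (m : ℕ) :
    Nonempty ((iterPoly a m).Gal ≃* IteratedWreathProduct (Multiplicative (ZMod 2)) m) := by
  classical
  have : Fact (((iterPoly a m).map (algebraMap ℚ Qbar)).Splits) := ⟨IsAlgClosed.splits _⟩
  have hcard : Nat.card ((iterPoly a m).rootSet Qbar) = 2 ^ m := by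
    rw [rootSet_iterPoly h, Nat.card_coe_set_eq, Set.ncard_coe_finset, card_iterRoots h]
  have hinj := Polynomial.Gal.galActionHom_injective (iterPoly a m) Qbar
  have hrange : Nat.card (Polynomial.Gal.galActionHom (iterPoly a m) Qbar).range =
      2 ^ (Nat.factorial (2 ^ m)).factorization 2 := by
    rw [← Nat.card_congr (MonoidHom.ofInjective hinj).toEquiv, card_gal_iterPoly h hsq,
      Nat.multiplicity_eq_factorization Nat.prime_two (Nat.factorial_ne_zero _) |>.symm,
      Nat.Prime.multiplicity_factorial_pow Nat.prime_two, Nat.geomSum_eq le_rfl]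
    simp
  let P : Sylow 2 (Equiv.Perm ((iterPoly a m).rootSet Qbar)) :=
    Sylow.ofCard (Polynomial.Gal.galActionHom (iterPoly a m) Qbar).range (by
      rw [hrange, Nat.card_perm, hcard])
  exact ⟨(MonoidHom.ofInjective hinj).trans
    (Sylow.mulEquivIteratedWreathProduct 2 m _ hcard (Multiplicative (ZMod 2)) (by simp) P)⟩

end FA.Arboreal

end
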